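import Fermat.Agent.MazurStep.Local.Modular
import Fermat.Agent.MazurStep.Moduli.Divisor
import Fermat.Agent.OrdinaryP.CurveHecke

/-!
# The cuspidal class on `X₀(p)`

For a prime `p` with `X₀(p)` of positive genus the class `c = (0) - (∞)` is nonzero, killed by
`p - 1`, fixed by Galois, and `T_q c = (1 + q) c` for every prime `q ≠ p`.
-/

set_option autoImplicit false
attribute [-instance] IsScalarTower.of_algHom

noncomputable section

namespace Fermat.Agent.MazurStep.Endgame

open HahnSeries AlgebraicCurve ModularCurve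
open Fermat.Agent Fermat.Agent.Kummer Fermat.Agent.MFGenus
open Fermat.Agent.Reduction Fermat.Agent.Reduction.CurveRed
open Fermat.Agent.MazurStep.Moduli (eElt)

local notation "ℚbar" => AlgebraicClosure ℚ
local notation "Γℚ" => AlgebraicClosure ℚ ≃ₐ[ℚ] AlgebraicClosure ℚ

/-- The class of the difference of two places. -/
def diffClass {N : ℕ} [NeZero N] (v w : Place ℚbar (modularFunctionFieldBar N)) : JZero N :=
  Pic0.mk ⟨Finsupp.single v 1 - Finsupp.single w 1, by
    rw [Divisor.mem_degZero, map_sub, Divisor.degree_single, Divisor.degree_single,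
      FF.deg_eq_one, FF.deg_eq_one, sub_self]⟩

theorem diffClass_add {N : ℕ} [NeZero N] (u v w : Place ℚbar (modularFunctionFieldBar N)) :
    diffClass u v + diffClass v w = diffClass u w := by
  rw [diffClass, diffClass, diffClass, ← Pic0.mk_add]
  refine congrArg Pic0.mk (Subtype.ext ?_)
  simp only [AddSubgroup.coe_add, sub_add_sub_cancel]

/-- A class of two fixed places is fixed. -/
theorem smul_diffClass {N : ℕ} [NeZero N] {v w : Place ℚbar (modularFunctionFieldBar N)}
    (σ : Γℚ) (hv : arithmeticGalois (L := ℚbar) (modularFunctionFieldFull N) σ • v = v)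
    (hw : arithmeticGalois (L := ℚbar) (modularFunctionFieldFull N) σ • w = w) :
    σ • diffClass v w = diffClass v w := by
  show Pic0.mk (SemilinearAut.degZeroSMulHom
      (arithmeticGalois (L := ℚbar) (modularFunctionFieldFull N) σ) _)
    = _
  refine congrArg Pic0.mk (Subtype.ext ?_)
  rw [SemilinearAut.coe_degZeroSMulHom]
  simp only [smul_sub, SemilinearAut.smul_single, hv, hw]

theorem nuTwo_le_two {p : ℕ} [hp : Fact p.Prime] : nuTwo p ≤ 2 := by
  classical
  rw [nuTwo, Nat.card_eq_fintype_card, Fintype.card_subtype]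
  let P : Polynomial (ZMod p) := Polynomial.X ^ 2 + Polynomial.C 1
  have hdeg : P.natDegree = 2 := Polynomial.natDegree_X_pow_add_C
  have hP : P ≠ 0 := fun h => by rw [h] at hdeg; simp at hdeg
  have hsub : (Finset.univ.filter fun x : ZMod p => x ^ 2 + 1 = 0) ⊆
      P.roots.toFinset := fun x hx => by
    rw [Multiset.mem_toFinset, Polynomial.mem_roots hP]
    simpa [P] using (Finset.mem_filter.1 hx).2
  exact ((Finset.card_le_card hsub).trans (Multiset.toFinset_card_le _)).trans
    ((P.card_roots').trans hdeg.le)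

theorem nuThree_le_two {p : ℕ} [hp : Fact p.Prime] : nuThree p ≤ 2 := by
  classical
  rw [nuThree, Nat.card_eq_fintype_card, Fintype.card_subtype]
  let P : Polynomial (ZMod p) := Polynomial.X ^ 2 + Polynomial.X + Polynomial.C 1
  have hdeg : P.natDegree = 2 := by
    simp only [P]
    compute_degree!
  have hP : P ≠ 0 := fun h => by rw [h] at hdeg; simp at hdeg
  have hsub : (Finset.univ.filter fun x : ZMod p => x ^ 2 + x + 1 = 0) ⊆ P.roots.toFinset :=
    fun x hx => by
    rw [Multiset.mem_toFinset, Polynomial.mem_roots hP]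
    simpa [P] using (Finset.mem_filter.1 hx).2
  exact ((Finset.card_le_card hsub).trans (Multiset.toFinset_card_le _)).trans
    ((P.card_roots').trans hdeg.le)

theorem nuTwo_eleven : nuTwo 11 = 0 := by
  rw [nuTwo, Nat.card_eq_fintype_card]; decide

theorem nuThree_eleven : nuThree 11 = 0 := by
  rw [nuThree, Nat.card_eq_fintype_card]; decide

/-- `X₀(p)` has positive genus for `p = 11` and `p ≥ 17`. -/
theorem finrank_S2_pos {p : ℕ} [NeZero p] (hp : p.Prime)
    (hp' : p ∉ ({2, 3, 5, 7, 13} : Finset ℕ)) :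
    0 < Module.finrank ℂ (CuspForm (CongruenceSubgroup.Gamma0 p) 2) := by
  have := Fact.mk hp
  have h := Fermat.Agent.S20.result p
  suffices hpos : (0 : ℚ) < genusFormula p by
    rw [← h] at hpos
    exact_mod_cast hpos
  have hpsi : dedekindPsi p = p + 1 := by
    rw [dedekindPsi, hp.divisors, Finset.filter_insert, Finset.filter_singleton]
    simp [hp.squarefree, hp.one_lt.ne, Nat.div_self hp.pos]
  have hc : cuspCount p = 2 := by
    rw [cuspCount, hp.divisors, Finset.sum_pair hp.one_lt.ne, Nat.div_one, Nat.div_self hp.pos]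
    simp
  rw [genusFormula, hpsi, hc]
  simp only [Finset.mem_insert, Finset.mem_singleton, not_or] at hp'
  obtain ⟨h2, h3, h5, h7, h13⟩ := hp'
  rcases le_or_gt 17 p with hbig | hsmall
  · have a : (nuTwo p : ℚ) ≤ 2 := by exact_mod_cast nuTwo_le_two
    have b : (nuThree p : ℚ) ≤ 2 := by exact_mod_cast nuThree_le_two
    have c : (17 : ℚ) ≤ p := by exact_mod_cast hbig
    push_cast
    linarith
  · obtain rfl : p = 11 := by
      interval_cases p <;> first | rfl | omega | (norm_num at hp)
    rw [nuTwo_eleven, nuThree_eleven]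
    norm_num

section Modular

variable {ℓ : ℕ} [Fact ℓ.Prime] {A : ValuationSubring ℚbar} (hA : A.LiesOverPrime ℓ) {N : ℕ}
  [NeZero N] (hℓN : ¬ ℓ ∣ N)

/-- The genus of the modular curve is the dimension of the cusp forms. -/
theorem g_modCurve : (modCurve hA N hℓN).g =
    Module.finrank ℂ (CuspForm (CongruenceSubgroup.Gamma0 N) 2) := by
  obtain ⟨B⟩ := OrdinaryP.exists_intBasis N
  exact (B.rank_eq_g hA hℓN).symm.trans B.rank_eq

theorem pt_modCurve : (modCurve hA N hℓN).pt = Semistable.cuspInf N :=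
  Semistable.place_eq_of_ord fun f =>
    ((modCurve hA N hℓN).ord_pt f).trans (Semistable.ord_cuspInf N f).symm

end Modular

/-- No function has a simple pole at `∞` as its only pole, if there is a form. -/
theorem order_ne_neg_one {K k : Type*} [Field K] [CharZero K] [Field k] {A : ValuationSubring K}
    {π : A →+* k} {S : CurveRed A π} (Φ : Forms S) (hg : 0 < S.g) (f : S.F)
    (hf : ∀ v, v ≠ S.pt → 0 ≤ v.ord f) : S.pt.ord f ≠ -1 := by
  intro hord
  set i₀ : Fin S.g := ⟨0, hg⟩
  have ho : (f : LaurentSeries K).order = -1 := by rw [← S.ord_pt, hord]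
  have hf0 : (f : LaurentSeries K) ≠ 0 := fun h => by
    rw [h, HahnSeries.order_zero] at ho
    omega
  have hmem : (f : LaurentSeries K) ∈ S.space (S.atPt 1) := by
    refine S.coe_mem_space.2 fun v => Or.inr ?_
    rcases eq_or_ne v S.pt with rfl | hv
    · rw [hord, S.atPt_self]
    · rw [S.atPt_of_ne _ hv]; simpa using hf v hv
  have hcoef : ∀ n : ℕ, (Φ.coef i₀ n : K) = 0 := by
    intro n
    induction n using Nat.strong_induction_on with
    | _ n ih =>
      set y := (f : LaurentSeries K) ^ n with hy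
      have hyo : y.order = -(n : ℤ) := by
        rw [hy, HahnSeries.order_pow, ho, nsmul_eq_mul, mul_neg_one]
      have hy0 : y ≠ 0 := pow_ne_zero _ hf0
      have hres := Φ.residue ((n : ℤ) * 1) y (by
        have h1 := S.pow_mem_space hmem n
        rwa [show ((n : ℤ) • S.atPt 1) = S.atPt ((n : ℤ) * 1) by
          rw [CurveRed.atPt, CurveRed.atPt, Finsupp.smul_single, smul_eq_mul]] at h1) i₀
      rw [HahnSeries.coeff_mul] at hres
      rw [Finset.sum_eq_single ((-(n : ℤ)), (n : ℤ))] at hres
      · simp only [intSer_coeff_natCast] at hres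
        refine (mul_eq_zero.1 hres).resolve_left ?_
        rw [← hyo]
        exact HahnSeries.coeff_order_eq_zero.not.2 hy0
      · rintro ⟨a, b⟩ hab hne
        rw [Finset.mem_antidiagonal] at hab
        obtain ⟨ha, hb, hsum⟩ := hab
        dsimp only at ha hb hsum ⊢
        rcases lt_or_ge b 0 with hb0 | hb0
        · rw [intSer_coeff_of_neg _ hb0, mul_zero]
        lift b to ℕ using hb0
        rcases lt_trichotomy b n with hlt | rfl | hgt
        · rw [intSer_coeff_natCast, ih b hlt, mul_zero]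
        · exact absurd (show (a, (b : ℤ)) = (-(b : ℤ), (b : ℤ)) from
            Prod.ext (show a = -(b : ℤ) by omega) rfl) hne
        · have : a < y.order := by
            rw [hyo]; omega
          rw [HahnSeries.coeff_eq_zero_of_lt_order this, zero_mul]
      · intro h
        rw [Finset.mem_antidiagonal] at h
        push Not at h
        by_contra hne
        rw [mul_eq_zero, not_or] at hne
        exact h hne.1 hne.2 (by simp)
  refine Φ.indep.ne_zero i₀ (funext fun n => ?_)
  have h1 : Φ.coef i₀ n = 0 := by exact_mod_cast hcoef n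
  show ((Φ.coef i₀ n : ℤ) : k) = 0
  rw [h1, Int.cast_zero]

/-- A place mapped to a pole of `j` along `T_q` is a pole of `j`. -/
theorem pole_of_pole_beta {N q : ℕ} [NeZero N] [NeZero q]
    (w : Place ℚbar (modularFunctionFieldBar (N * q)))
    (h : w.ord (heckeBetaBar ℚbar N q (jElt ℚbar N)) < 0) :
    w.ord (heckeAlphaBar ℚbar N q (jElt ℚbar N)) < 0 := by
  have hj0 : ∀ M : ℕ, ∀ [NeZero M], jElt ℚbar M ≠ 0 := fun M _ h0 =>
    transcendental_jElt (N := M) ιbar (h0 ▸ isAlgebraic_zero)
  have hβ0 : heckeBetaBar ℚbar N q (jElt ℚbar N) ≠ 0 := (map_ne_zero _).2 (hj0 N)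
  have hα : heckeAlphaBar ℚbar N q (jElt ℚbar N) = jElt ℚbar (N * q) := by
    refine (embed ιbar (N * q)).injective ?_
    rw [embed_heckeAlpha, embed_jElt, embed_jElt]
  rw [hα]
  rcases exists_tau_or_cusp (N := N * q) ιbar w with ⟨τ, e, he, hord⟩ | ⟨c, hord⟩
  · exfalso
    have h1 := hord _ hβ0
    rw [embed_heckeBeta, embed_jElt] at h1
    change MFGenus.ordPoint τ (MeroH.jScale q (NeZero.pos q)) = _ at h1
    rw [jScale_eq_ofHol] at h1
    have hhol : MFCore.jN q ≠ 0 := fun h0 => by
      apply (map_ne_zero (embed ιbar (N * q))).2 hβ0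
      rw [embed_heckeBeta, embed_jElt]
      change MeroH.jScale q (NeZero.pos q) = 0
      rw [jScale_eq_ofHol]
      exact (MeroH.ofHol_congr _ mdifferentiable_const h0).trans rfl
    have han : AnalyticAt ℂ (MFCore.jN q ∘ UpperHalfPlane.ofComplex) (τ : ℂ) :=
      (UpperHalfPlane.mdifferentiable_iff.1 MFCore.jN_mdiff).analyticOnNhd
        UpperHalfPlane.isOpen_upperHalfPlaneSet _ τ.im_pos
    have h2 : (0 : ℤ) ≤ MFGenus.ordPoint τ (MeroH.ofHol (MFCore.jN q) MFCore.jN_mdiff) := by
      rw [← WithTop.coe_le_coe, coe_ordPoint (Moduli.ofHol_ne_zero _ hhol), MeroH.ofHol,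
        MeroH.ordAt_mk _ (coe_mem_uhp τ), WithTop.coe_zero]
      exact han.meromorphicOrderAt_nonneg
    nlinarith
  · have h1 := hord _ (inv_ne_zero (hj0 (N * q)))
    rw [ordInfty_cuspEmbed_inv, w.ord_inv] at h1
    have hpos : (0 : ℤ) < ((N * q : ℕ) : ℤ) := by exact_mod_cast NeZero.pos (N * q)
    nlinarith [Int.natCast_nonneg (N * q / Cosets.cuspWidth c)]

/-- The image of a pole of `j` along `T_q` consists of poles of `j`. -/
theorem pole_of_heckeDiv_ne_zero {N q : ℕ} [NeZero N] [NeZero q]
    {v₀ v : Place ℚbar (modularFunctionFieldBar N)} (h0 : v₀.ord (jElt ℚbar N) < 0)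
    (hv : OrdinaryP.heckeDiv N q (Finsupp.single v₀ 1) v ≠ 0) : v.ord (jElt ℚbar N) < 0 := by
  classical
  rw [OrdinaryP.heckeDiv_single_apply] at hv
  set P := Divisor.pullbackAlong (heckeBetaBar ℚbar N q) (FF.isIntegralAlong _)
    (Finsupp.single v₀ (1 : ℤ)) with hP
  rw [← Finsupp.sum_single P, map_finsuppSum, Finsupp.sum_apply] at hv
  obtain ⟨u, hu, hne0⟩ := Finset.exists_ne_zero_of_sum_ne_zero hv
  dsimp only at hne0
  rw [OrdinaryP.pushforwardAlong_alpha_single, Finsupp.single_apply] at hne0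
  have hr : u.restrictAlong (heckeAlphaBar ℚbar N q) (FF.isIntegralAlong _) = v := by
    by_contra h
    rw [if_neg h] at hne0
    exact hne0 rfl
  have hu' := Finsupp.mem_support_iff.1 hu
  rw [hP, Divisor.pullbackAlong_apply, Finsupp.single_apply] at hu'
  have hrβ : u.restrictAlong (heckeBetaBar ℚbar N q) (FF.isIntegralAlong _) = v₀ := by
    by_contra h
    rw [if_neg (Ne.symm h), mul_zero] at hu'
    exact hu' rfl
  have heβ := Place.ord_restrictAlong (heckeBetaBar ℚbar N q) (FF.isIntegralAlong _) u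
    (jElt ℚbar N)
  have heα := Place.ord_restrictAlong (heckeAlphaBar ℚbar N q) (FF.isIntegralAlong _) u
    (jElt ℚbar N)
  rw [hrβ] at heβ
  rw [hr] at heα
  have hramβ : 0 < (Place.ramificationIndexAlong (heckeBetaBar ℚbar N q) u : ℤ) := by
    rcases Nat.eq_zero_or_pos (Place.ramificationIndexAlong (heckeBetaBar ℚbar N q) u)
      with h | h
    · rw [h, Nat.cast_zero, zero_mul] at hu'
      exact absurd rfl hu'
    · exact_mod_cast h
  have hαneg := pole_of_pole_beta u (by rw [heβ]; exact mul_neg_of_pos_of_neg hramβ h0)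
  rw [heα] at hαneg
  by_contra hge
  nlinarith

/-- There are only two poles of `j` on `X₀(p)`. -/
theorem eq_or_eq_of_pole {p : ℕ} [NeZero p] (hp : p.Prime)
    {vi v₀ v : Place ℚbar (modularFunctionFieldBar p)} (hne : vi ≠ v₀)
    (hi : 0 < vi.ord (jElt ℚbar p)⁻¹) (h0 : 0 < v₀.ord (jElt ℚbar p)⁻¹)
    (hv : 0 < v.ord (jElt ℚbar p)⁻¹) : v = vi ∨ v = v₀ := by
  obtain ⟨a, b, hab, huniv⟩ := Nat.card_eq_two_iff.1 (Moduli.card_cusp_places p hp)
  have hmem : ∀ z : {z : Place ℚbar (modularFunctionFieldBar p) //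
      0 < z.ord (jElt ℚbar p)⁻¹}, z = a ∨ z = b := fun z => by
    simpa using (huniv.symm ▸ Set.mem_univ z : z ∈ ({a, b} : Set _))
  rcases hmem ⟨vi, hi⟩ with e1 | e1 <;> rcases hmem ⟨v₀, h0⟩ with e2 | e2 <;>
    rcases hmem ⟨v, hv⟩ with e3 | e3 <;>
    first
      | exact absurd (congrArg Subtype.val (e1.trans e2.symm)) hne
      | exact Or.inl (congrArg Subtype.val (e3.trans e1.symm))
      | exact Or.inr (congrArg Subtype.val (e3.trans e2.symm))

theorem mk_nsmul' {K F : Type*} [Field K] [Field F] [Algebra K F] (n : ℕ)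
    (D : Divisor.degZero (K := K) (F := F)) :
    Pic0.mk (n • D) = n • (Pic0.mk D : Pic0 K F) := rfl

/-- A class of two places with the same multiplication along `T_q`. -/
theorem heckeOperatorBar_diffClass {N : ℕ} [NeZero N] {q : Nat.Primes} [NeZero (q : ℕ)]
    (v w : Place ℚbar (modularFunctionFieldBar N)) (n : ℕ)
    (hv : OrdinaryP.heckeDiv N q (Finsupp.single v 1) = Finsupp.single v (n : ℤ))
    (hw : OrdinaryP.heckeDiv N q (Finsupp.single w 1) = Finsupp.single w (n : ℤ)) :
    heckeOperatorBar N q (diffClass v w) = n • diffClass v w := by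
  have hfin : FiniteAlong ℚbar (heckeAlphaBar ℚbar N q) := FF.finiteAlong _
  have hFI := FF.fundamentalIdentityAlong (heckeBetaBar ℚbar N q) (FF.isIntegralAlong _)
  have hN := FF.normFormulaAlong (heckeAlphaBar ℚbar N q) hfin
  rw [heckeOperatorBar_apply, diffClass,
    heckeOperatorAlong_eq (FF.isIntegralAlong _) (FF.isIntegralAlong _) hFI hfin hN]
  refine (Pic0.correspondence_mk _ _ _ _ hFI hfin hN _).trans
    (Eq.trans (congrArg Pic0.mk (Subtype.ext ?_)) (mk_nsmul' n _))
  rw [Pic0.coe_degZeroCorrespondence, AddSubgroupClass.coe_nsmul]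
  change OrdinaryP.heckeDiv N q _ = _
  rw [map_sub, hv, hw, smul_sub, Finsupp.smul_single, Finsupp.smul_single]
  simp

/-- The image of the cusp `0` avoids `∞`. -/
theorem heckeDiv_apply_infty {p q : ℕ} [NeZero p] [NeZero q] [Fact q.Prime] (hp : p.Prime)
    (hqN : ¬ q ∣ p) (v₀ : Place ℚbar (modularFunctionFieldBar p))
    (hdiv : ∀ v, ((p : ℤ) - 1) * (Finsupp.single v₀ (1 : ℤ) -
      Finsupp.single (Semistable.cuspInf p) 1 : Divisor ℚbar (modularFunctionFieldBar p)) v =
        v.ord (eElt p))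
    (hTi : OrdinaryP.heckeDiv p q (Finsupp.single (Semistable.cuspInf p) 1) =
      Finsupp.single (Semistable.cuspInf p) ((q : ℤ) + 1)) :
    OrdinaryP.heckeDiv p q (Finsupp.single v₀ 1) (Semistable.cuspInf p) = 0 := by
  classical
  obtain ⟨u', -, hs, hT⟩ := Kummer.exists_norm_lift hqN (Moduli.eElt_ne_zero p)
  have h := hT (FF.isIntegralAlong _) (FF.isIntegralAlong _)
    (((p : ℤ) - 1) • (Finsupp.single v₀ (1 : ℤ) - Finsupp.single (Semistable.cuspInf p) 1))
    (fun v => by rw [Finsupp.smul_apply, smul_eq_mul]; exact hdiv v) (Semistable.cuspInf p)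
  change OrdinaryP.heckeDiv p q _ (Semistable.cuspInf p) = _ at h
  have hs' : (u' : LaurentSeries ℚbar) = heckeSer q (eElt p : LaurentSeries ℚbar) := hs
  rw [map_zsmul, map_sub, hTi, Finsupp.smul_apply, Finsupp.sub_apply, Finsupp.single_eq_same,
    Semistable.ord_cuspInf, hs', order_heckeSer,
    show ((eElt p : modularFunctionFieldBar p) : LaurentSeries ℚbar).order = 1 - (p : ℤ) from
      Moduli.qOrder_eElt p, smul_eq_mul] at h
  have hp2 := hp.two_le
  have : ((p : ℤ) - 1) * OrdinaryP.heckeDiv p q (Finsupp.single v₀ 1)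
      (Semistable.cuspInf p) = 0 := by
    linarith
  exact (mul_eq_zero.1 this).resolve_left (by omega)

/-- **The cuspidal class.** -/
theorem exists_cuspClass {p : ℕ} [NeZero p] (hp : p.Prime)
    (hp' : p ∉ ({2, 3, 5, 7, 13} : Finset ℕ)) :
    ∃ v₀ : Place ℚbar (modularFunctionFieldBar p),
      (∀ σ : Γℚ, arithmeticGalois (L := ℚbar) (modularFunctionFieldFull p) σ •
        Semistable.cuspInf p =
        Semistable.cuspInf p) ∧
      (∀ σ : Γℚ, arithmeticGalois (L := ℚbar) (modularFunctionFieldFull p) σ • v₀ = v₀) ∧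
      (Semistable.cuspInf p).ord (eElt p) = 1 - (p : ℤ) ∧
      (∀ v, v ≠ Semistable.cuspInf p → v ≠ v₀ → v.ord (eElt p) = 0) ∧
      v₀.ord (eElt p) = (p : ℤ) - 1 ∧
      (p - 1) • diffClass v₀ (Semistable.cuspInf p) = 0 ∧
      diffClass v₀ (Semistable.cuspInf p) ≠ 0 ∧
      ∀ q : Nat.Primes, (q : ℕ) ≠ p →
        heckeOperatorBar p q (diffClass v₀ (Semistable.cuspInf p)) =
          (1 + (q : ℕ)) • diffClass v₀ (Semistable.cuspInf p) := by
  classical
  obtain ⟨vi, v₀, hne, hvi, hifix, h0fix, hei, he0, hoff⟩ := Moduli.exists_cusps p hp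
  obtain rfl : vi = Semistable.cuspInf p :=
    Semistable.place_eq_of_ord fun f => (hvi f).trans (Semistable.ord_cuspInf p f).symm
  set vi := Semistable.cuspInf p with hvidef
  have hp1 : 1 ≤ p := hp.one_lt.le
  have hdiv : ∀ v, ((p : ℤ) - 1) * (Finsupp.single v₀ (1 : ℤ) - Finsupp.single vi 1 :
      Divisor ℚbar (modularFunctionFieldBar p)) v = v.ord (eElt p) := by
    intro v
    by_cases h1 : v = vi
    · subst h1
      rw [Finsupp.sub_apply, Finsupp.single_eq_of_ne hne, Finsupp.single_eq_same, hei]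
      ring
    by_cases h2 : v = v₀
    · subst h2
      rw [Finsupp.sub_apply, Finsupp.single_eq_of_ne hne.symm, Finsupp.single_eq_same, he0]
      ring
    rw [Finsupp.sub_apply, Finsupp.single_eq_of_ne h1, Finsupp.single_eq_of_ne h2, hoff v h1 h2]
    ring
  refine ⟨v₀, hifix, h0fix, hei, hoff, he0, ?_, ?_, ?_⟩
  · show _ • Pic0.mk _ = 0
    rw [show ∀ (n : ℕ) D, n • (Pic0.mk D : JZero p) = Pic0.mk (n • D) from fun _ _ => rfl]
    refine (QuotientAddGroup.eq_zero_iff _).mpr (AddSubgroup.mem_addSubgroupOf.mpr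
      ⟨eElt p, Moduli.eElt_ne_zero p, fun v => ?_⟩)
    rw [AddSubgroupClass.coe_nsmul, Finsupp.smul_apply, nsmul_eq_mul, Nat.cast_sub hp1]
    push_cast
    exact hdiv v
  · intro h
    obtain ⟨A, hA⟩ := Gal.exists_liesOverPrime (L := ℚbar) Nat.prime_two
    have h2p : ¬ 2 ∣ p := fun h => by
      have := (Nat.prime_dvd_prime_iff_eq Nat.prime_two hp).1 h
      exact hp' (by simp [← this])
    obtain ⟨f, hf, hfd⟩ := AddSubgroup.mem_addSubgroupOf.mp ((QuotientAddGroup.eq_zero_iff _).mp h)
    have hpt := pt_modCurve hA h2p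
    have hne' : v₀ ≠ vi := hne.symm
    refine order_ne_neg_one (modForms hA p h2p)
      (by rw [g_modCurve]; exact finrank_S2_pos hp hp') f (fun v hv => ?_) ?_
    · rw [hpt] at hv
      have e := hfd v
      simp only [Finsupp.sub_apply, Finsupp.single_apply] at e
      rw [← e]
      split_ifs <;> first | omega | (rename_i h'; exact absurd h'.symm hv)
    · rw [hpt]
      have e := hfd vi
      simp only [Finsupp.sub_apply, Finsupp.single_apply, if_neg hne', if_true] at e
      exact e.symm.trans (by norm_num)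
  · intro q hqp
    have := Fact.mk q.2
    have hqN : ¬ (q : ℕ) ∣ p := fun h => hqp ((Nat.prime_dvd_prime_iff_eq q.2 hp).1 h)
    obtain ⟨w⟩ := Semistable.ALData.exists_of_coprime q.2 hqN
    set E := OrdinaryP.heckeDiv p q (Finsupp.single v₀ 1) with hE
    have hTi : OrdinaryP.heckeDiv p q (Finsupp.single vi 1) =
        Finsupp.single vi (((q : ℕ) : ℤ) + 1) := OrdinaryP.heckeDiv_cuspInf q.2 w hqN
    have hEdeg : Divisor.degree E = ((q : ℕ) : ℤ) + 1 := by
      rw [hE, OrdinaryP.degree_heckeDiv q.2 hqN, Divisor.degree_single, FF.deg_eq_one]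
      ring
    -- the support
    have hi : 0 < vi.ord (jElt ℚbar p)⁻¹ := by
      by_contra hge
      have := Moduli.ord_eElt_eq_zero p hge
      rw [hei] at this
      have := hp.two_le
      omega
    have h0 : 0 < v₀.ord (jElt ℚbar p)⁻¹ := by
      by_contra hge
      have := Moduli.ord_eElt_eq_zero p hge
      rw [he0] at this
      have := hp.two_le
      omega
    have hsupp : ∀ v, v ≠ vi → v ≠ v₀ → E v = 0 := by
      intro v h1 h2
      by_contra hv
      have hvpole : 0 < v.ord (jElt ℚbar p)⁻¹ := by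
        rw [v.ord_inv]
        have h3 := pole_of_heckeDiv_ne_zero (q := (q : ℕ)) (v₀ := v₀) (v := v)
          (by rw [v₀.ord_inv] at h0; omega) hv
        omega
      rcases eq_or_eq_of_pole hp hne hi h0 hvpole with h | h
      · exact h1 h
      · exact h2 h
    -- no component at infinity
    have hEi : E vi = 0 :=
      heckeDiv_apply_infty hp hqN v₀ hdiv hTi
    have hEeq : E = Finsupp.single v₀ (((q : ℕ) : ℤ) + 1) := by
      have e1 : E = Finsupp.single v₀ (E v₀) := Finsupp.ext fun v => by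
        rw [Finsupp.single_apply]
        split_ifs with h
        · rw [h]
        by_cases h' : v = vi
        · rw [h', hEi]
        · exact hsupp v h' (Ne.symm h)
      rw [e1, Divisor.degree_single, FF.deg_eq_one, Nat.cast_one, mul_one] at hEdeg
      rw [e1, hEdeg]
    refine heckeOperatorBar_diffClass v₀ (Semistable.cuspInf p) ((q : ℕ) + 1) ?_ ?_ |>.trans ?_
    · rw [← hE, hEeq, Nat.cast_succ]
    · rw [← hvidef, hTi, Nat.cast_succ]
    · rw [add_comm]

end Fermat.Agent.MazurStep.Endgame
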