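import Fermat.Agent.MazurStep.Disc

/-!
# Values of regular functions and residue discs

If a function regular outside `q = 0` has a reduction with the same pole order, then its value at a
place other than `q = 0` is integral iff the place is good; if moreover the function has a single
zero, all good places where its value is in the maximal ideal reduce to that zero.
-/

set_option autoImplicit false
attribute [-instance] IsScalarTower.of_algHom

noncomputable section

namespace Fermat.Agent.MazurStep

open HahnSeries AlgebraicCurve ModularCurve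
open Fermat.Agent.Reduction
open Fermat.Agent.Reduction.CurveRed

variable {K k : Type*} [Field K] [Field k] {A : ValuationSubring K} {π : A →+* k}
  {S : CurveRed A π} {n₀ : ℕ}

theorem coeff_algebraMap_of_neg {R : Type*} [Field R] (c : R) {i : ℤ} (hi : i < 0) :
    (algebraMap R (LaurentSeries R) c).coeff i = 0 := by
  rw [algebraMap_laurentSeries_eq_single, HahnSeries.coeff_single_of_ne hi.ne]

/-- `f` is regular outside `q = 0`, with a pole of order `M` there that survives reduction. -/
structure FullPole (f : S.F) (M : ℤ) (t : LaurentSeries k) : Prop where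
  pos : 0 < M
  regular : ∀ v, v ≠ S.pt → 0 ≤ v.ord f
  ord_pt : S.pt.ord f = -M
  red : Red A π (f : LaurentSeries K) t
  order_red : t.order = -M

theorem ord_sub_algebraMap_nonneg (v : Place K S.F) {f : S.F} (hf : 0 ≤ v.ord f) (a : K) :
    0 ≤ v.ord (f - algebraMap K S.F a) := by
  rcases eq_or_ne (f - algebraMap K S.F a) 0 with h0 | h0
  · rw [h0, v.ord_zero]
  rw [sub_eq_add_neg] at h0 ⊢
  refine le_trans ?_ (FF.min_ord_le_ord_add v h0)
  rw [FF.ord_neg, FF.ord_algebraMap]
  exact le_min hf le_rfl

namespace FullPole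

variable {f : S.F} {M : ℤ} {t : LaurentSeries k}

theorem ne_zero (hf : FullPole f M t) : f ≠ 0 := fun h => by
  have := hf.ord_pt
  rw [h] at this
  simp at this
  exact absurd this hf.pos.ne'

theorem coe_sub_algebraMap (f : S.F) (a : K) :
    ((f - algebraMap K S.F a : S.F) : LaurentSeries K) =
      (f : LaurentSeries K) - algebraMap K (LaurentSeries K) a := rfl

/-- Subtracting an integral constant keeps a full pole. -/
theorem sub_const (hf : FullPole f M t) (a : A) :
    FullPole (f - algebraMap K S.F a) M (t - algebraMap k (LaurentSeries k) (π a)) := by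
  have hred : Red A π ((f - algebraMap K S.F (a : K) : S.F) : LaurentSeries K)
      (t - algebraMap k (LaurentSeries k) (π a)) := hf.red.sub (red_algebraMap a)
  have hM := hf.pos
  refine ⟨hM, fun v hv => ?_, ?_, hred, ?_⟩
  · have hf0 := hf.regular v hv
    exact ord_sub_algebraMap_nonneg v hf0 _
  · rw [S.ord_pt, coe_sub_algebraMap]
    have ho := hf.ord_pt
    rw [S.ord_pt] at ho
    refine le_antisymm (HahnSeries.order_le_of_coeff_ne_zero ?_) ?_
    · rw [HahnSeries.coeff_sub, coeff_algebraMap_of_neg _ (show _ < (0:ℤ) by omega), sub_zero, ← ho]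
      exact HahnSeries.coeff_order_eq_zero.not.2 fun h => hf.ne_zero (Subtype.ext h)
    · by_contra hlt
      rw [not_le] at hlt
      have hne : (f : LaurentSeries K) - algebraMap K (LaurentSeries K) (a : K) ≠ 0 := fun h => by
        rw [sub_eq_zero] at h
        have h1 := congrArg (fun s : LaurentSeries K => s.coeff (-M)) h
        simp only [coeff_algebraMap_of_neg _ (show -M < 0 by omega)] at h1
        rw [← ho] at h1
        exact hf.ne_zero (Subtype.ext (HahnSeries.coeff_order_eq_zero.1 h1))
      have h2 := HahnSeries.coeff_order_eq_zero.not.2 hne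
      rw [HahnSeries.coeff_sub, coeff_algebraMap_of_neg _ (show _ < (0:ℤ) by omega), sub_zero] at h2
      exact h2 (HahnSeries.coeff_eq_zero_of_lt_order (by omega))
  · have ho := hf.order_red
    have ht : t ≠ 0 := fun h => by rw [h, HahnSeries.order_zero] at ho; omega
    refine le_antisymm (HahnSeries.order_le_of_coeff_ne_zero ?_) ?_
    · rw [HahnSeries.coeff_sub, coeff_algebraMap_of_neg _ (show _ < (0:ℤ) by omega), sub_zero, ← ho]
      exact HahnSeries.coeff_order_eq_zero.not.2 ht
    · by_contra hlt
      rw [not_le] at hlt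
      have hne : t - algebraMap k (LaurentSeries k) (π a) ≠ 0 := fun h => by
        rw [sub_eq_zero] at h
        have h1 := congrArg (fun s : LaurentSeries k => s.coeff (-M)) h
        simp only [coeff_algebraMap_of_neg _ (show -M < 0 by omega)] at h1
        rw [← ho] at h1
        exact ht (HahnSeries.coeff_order_eq_zero.1 h1)
      have h2 := HahnSeries.coeff_order_eq_zero.not.2 hne
      rw [HahnSeries.coeff_sub, coeff_algebraMap_of_neg _ (show _ < (0:ℤ) by omega), sub_zero] at h2
      exact h2 (HahnSeries.coeff_eq_zero_of_lt_order (by omega))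

/-- The divisor of zeros. -/
theorem exists_zeros (hf : FullPole f M t) :
    ∃ E : Divisor K S.F, S.IsEff E ∧ Divisor.degree E = M ∧
      ∀ v, v.ord f = E v - S.atPt M v := by
  obtain ⟨D, hD, hdeg⟩ := S.exists_div hf.ne_zero
  refine ⟨D + S.atPt M, fun v => ?_, by rw [map_add, hdeg, S.degree_atPt, zero_add], fun v => by
    rw [Finsupp.add_apply, hD v]; ring⟩
  rw [Finsupp.add_apply, hD v]
  rcases eq_or_ne v S.pt with rfl | hv
  · rw [hf.ord_pt, S.atPt_self]; omega
  · rw [S.atPt_of_ne M hv, add_zero]; exact hf.regular v hv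

/-- All zeros of a full pole are good. -/
theorem isGoodDiv_zeros (hgap : S.GapBound n₀) (hf : FullPole f M t) {E : Divisor K S.F}
    (hE : S.IsEff E) (hdeg : Divisor.degree E = M) (hdiv : ∀ v, v.ord f = E v - S.atPt M v) :
    IsGoodDiv E := by
  have ht : t ≠ 0 := fun h => by
    have := hf.order_red
    rw [h, HahnSeries.order_zero] at this
    have := hf.pos
    omega
  have h := order_red_eq hgap hE hf.ne_zero hdiv ht hf.red
  rw [hf.order_red, neg_neg, goodDeg, hdeg] at h
  have hb : badPart (S := S) E = 0 := S.eq_zero_of_effective (isEff_badPart hE) (by omega)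
  intro v hv hbad
  exact hv (by rw [← badPart_apply_bad (D := E) hbad, hb, Finsupp.zero_apply])

/-- A zero of a full pole is good. -/
theorem not_isBad_of_zero (hgap : S.GapBound n₀) (hf : FullPole f M t) {v : Place K S.F}
    (hv : 0 < v.ord f) : ¬ IsBad v := by
  obtain ⟨E, hE, hdeg, hdiv⟩ := hf.exists_zeros
  refine hf.isGoodDiv_zeros hgap hE hdeg hdiv v ?_
  have := hdiv v
  rcases eq_or_ne v S.pt with rfl | hne
  · rw [hf.ord_pt] at hv; have := hf.pos; omega
  · rw [S.atPt_of_ne M hne] at this; omega

/-- A place where the value is integral is good. -/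
theorem not_isBad_of_value (hgap : S.GapBound n₀) (hf : FullPole f M t) {v : Place K S.F} {a : K}
    (ha : a ∈ A) (hv : 0 < v.ord (f - algebraMap K S.F a)) : ¬ IsBad v :=
  (hf.sub_const ⟨a, ha⟩).not_isBad_of_zero hgap hv

/-- A place where the value is not integral is bad. -/
theorem isBad_of_value (hgap : S.GapBound n₀) (hf : FullPole f M t) {v : Place K S.F} {a : K}
    (ha : a ∉ A) (hv : 0 < v.ord (f - algebraMap K S.F a)) : IsBad v := by
  classical
  have ha0 : a ≠ 0 := fun h => ha (h ▸ A.zero_mem)
  set b : A := ⟨a⁻¹, (A.mem_or_inv_mem a).resolve_left ha⟩ with hb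
  have hbnon : π b = 0 := by
    refine (residue_eq_zero_iff S.surj b).mpr ?_
    have h1 : A.valuation a > 1 := not_le.1 fun h => ha ((A.valuation_le_one_iff a).1 h)
    rw [show (b : K) = a⁻¹ from rfl, map_inv₀]
    exact inv_lt_one_of_one_lt₀ h1
  have hne : f - algebraMap K S.F a ≠ 0 := fun h => by
    rw [h, v.ord_zero] at hv; exact lt_irrefl _ hv
  set h : S.F := algebraMap K S.F a⁻¹ * (f - algebraMap K S.F a) with hh
  have hh0 : h ≠ 0 :=
    mul_ne_zero ((map_ne_zero (algebraMap K S.F)).2 (inv_ne_zero ha0)) hne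
  have hord : ∀ w : Place K S.F, w.ord h = w.ord (f - algebraMap K S.F a) := fun w => by
    rw [hh, w.ord_mul ((map_ne_zero (algebraMap K S.F)).2 (inv_ne_zero ha0)) hne,
      FF.ord_algebraMap w, zero_add]
  have hred : Red A π (h : LaurentSeries K) (-1) := by
    have e : (h : LaurentSeries K) =
        algebraMap K (LaurentSeries K) (b : K) * (f : LaurentSeries K) - 1 := by
      rw [hh, mul_sub, ← map_mul (algebraMap K S.F), inv_mul_cancel₀ ha0, map_one]
      rfl
    have h2 := ((red_algebraMap b).mul hf.red).sub red_one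
    rw [hbnon, map_zero, zero_mul, zero_sub] at h2
    rw [e]
    exact h2
  -- the divisor of zeros
  obtain ⟨D, hD, hdeg⟩ := S.exists_div hh0
  have hM := hf.pos
  have hneg : ∀ w, w ≠ S.pt → 0 ≤ w.ord (f - algebraMap K S.F a) := fun w hw => by
    exact ord_sub_algebraMap_nonneg w (hf.regular w hw) _
  have hpt : -M ≤ S.pt.ord h := by
    rw [hord, sub_eq_add_neg]
    refine le_trans ?_ (FF.min_ord_le_ord_add S.pt (by rwa [← sub_eq_add_neg]))
    rw [hf.ord_pt, FF.ord_neg, FF.ord_algebraMap]
    omega
  set E := D + S.atPt M with hEdef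
  have hE : S.IsEff E := fun w => by
    rw [hEdef, Finsupp.add_apply, hD w]
    rcases eq_or_ne w S.pt with rfl | hw
    · rw [S.atPt_self]; omega
    · rw [S.atPt_of_ne M hw, add_zero, hord]; exact hneg w hw
  have hdiv : ∀ w, w.ord h = E w - S.atPt M w := fun w => by
    rw [hEdef, Finsupp.add_apply, hD w]; ring
  have h0 := order_red_eq hgap hE hh0 hdiv (neg_ne_zero.2 one_ne_zero) hred
  rw [HahnSeries.order_neg, HahnSeries.order_one, neg_zero, goodDeg] at h0
  by_contra hbad
  have hgood : (E - badPart (S := S) E) = 0 := by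
    refine S.eq_zero_of_effective (isEff_sub_badPart hE) ?_
    rw [map_sub]
    omega
  have hEv : E v = 0 := by
    have := congrArg (fun D : Divisor K S.F => D v) hgood
    simpa [Finsupp.sub_apply, badPart_apply_good hbad] using this
  have h1 : v ≠ S.pt := fun e => hbad (e ▸ isBad_pt)
  have h2 := hdiv v
  rw [hord, hEv, S.atPt_of_ne M h1] at h2
  omega

/-- **Good places with values in the maximal ideal reduce to the only zero.** -/
theorem classHom_single_eq (hgap : S.GapBound n₀) (hf : FullPole f M t) {v₀ : Place K S.F}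
    (h0 : ∀ v, v ≠ S.pt → v ≠ v₀ → v.ord f = 0) {v : Place K S.F} {a : K} (ha : A.valuation a < 1)
    (hv : 0 < v.ord (f - algebraMap K S.F a)) :
    hgap.classHom (Finsupp.single v 1) = hgap.classHom (Finsupp.single v₀ 1) := by
  classical
  set a' : A := ⟨a, (A.valuation_le_one_iff a).1 ha.le⟩ with ha'
  have hπ : π a' = 0 := (residue_eq_zero_iff S.surj a').mpr ha
  have hf' := hf.sub_const a'
  rw [hπ, map_zero, sub_zero] at hf'
  obtain ⟨E, hE, hdeg, hdiv⟩ := hf.exists_zeros
  obtain ⟨E', hE', hdeg', hdiv'⟩ := hf'.exists_zeros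
  have ht : t ≠ 0 := fun h => by
    have := hf.order_red
    rw [h, HahnSeries.order_zero] at this
    have := hf.pos
    omega
  have hE0 : ∀ w, w ≠ v₀ → E w = 0 := fun w hw => by
    have h1 := hdiv w
    rcases eq_or_ne w S.pt with rfl | hne
    · rw [hf.ord_pt, S.atPt_self] at h1; omega
    · rw [h0 w hne hw, S.atPt_of_ne M hne] at h1; omega
  have hEeq : E = Finsupp.single v₀ M := by
    have e1 : E = Finsupp.single v₀ (E v₀) := Finsupp.ext fun w => by
      rw [Finsupp.single_apply]
      split_ifs with h
      · rw [h]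
      · exact hE0 w (Ne.symm h)
    rw [e1, Divisor.degree_single, S.deg_one, Nat.cast_one, mul_one] at hdeg
    rw [e1, hdeg]
  obtain ⟨m, hm⟩ := Int.eq_ofNat_of_zero_le hf.pos.le
  have hv₀ : ¬ IsBad v₀ := by
    refine hf.not_isBad_of_zero hgap ?_
    have hvne : v₀ ≠ S.pt := fun e => by
      have h1 := hdiv v₀
      rw [hEeq, Finsupp.single_eq_same, e, hf.ord_pt, S.atPt_self] at h1
      have := hf.pos
      omega
    rw [hdiv v₀, hEeq, Finsupp.single_eq_same, S.atPt_of_ne M hvne, sub_zero]
    exact hf.pos
  have hvgood : ¬ IsBad v := hf'.not_isBad_of_zero hgap hv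
  have hP0 := hgap.effIdeal'_single_isMaximal hv₀
  have hP := hgap.effIdeal'_single_isMaximal hvgood
  have hvne : v ≠ S.pt := fun e => hvgood (e ▸ isBad_pt)
  -- the same ideal of zeros
  have hsame : S.effIdeal' E = S.effIdeal' E' := by
    ext c
    rw [mem_effIdeal', mem_effIdeal', effIdeal_eq_span hE hf.ne_zero hdiv ht hf.red,
      effIdeal_eq_span hE' hf'.ne_zero hdiv' ht hf'.red]
  have hpow : ∀ j : ℕ, S.effIdeal' (Finsupp.single v₀ (j : ℤ)) =
      S.effIdeal' (Finsupp.single v₀ 1) ^ j := fun j => by
    induction j with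
    | zero => simp [effIdeal'_zero]
    | succ j ih =>
      rw [Nat.cast_succ, Finsupp.single_add, hgap.effIdeal'_add
        (isEff_single v₀ (Int.natCast_nonneg j)) (isEff_single v₀ zero_le_one), ih, pow_succ]
  have hle : S.effIdeal' (Finsupp.single v₀ 1) ^ m ≤ S.effIdeal' (Finsupp.single v 1) := by
    rw [← hpow m, ← hm, ← hEeq, hsame]
    refine effIdeal'_antitone fun w => ?_
    rw [Finsupp.single_apply]
    split_ifs with h
    · subst h
      have h2 := hdiv' v
      rw [S.atPt_of_ne M hvne] at h2
      change v.ord (f - algebraMap K S.F a) = _ at h2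
      omega
    · exact hE' w
  have heq : S.effIdeal' (Finsupp.single v₀ 1) = S.effIdeal' (Finsupp.single v 1) :=
    hP0.1.eq_of_le hP.1.ne_top (hP.1.isPrime.le_of_pow_le hle)
  have hI : S.effIdeal (Finsupp.single v₀ 1) = S.effIdeal (Finsupp.single v 1) := by
    rw [← map_effIdeal' (isEff_single v₀ zero_le_one), heq,
      map_effIdeal' (isEff_single v zero_le_one)]
  obtain ⟨u, hu⟩ := hgap.exists_effUnit (isEff_single (S := S) v zero_le_one)
  rw [hgap.classHom_eff (isEff_single v zero_le_one) u hu,
    hgap.classHom_eff (isEff_single v₀ zero_le_one) u (hu.trans hI.symm)]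

end FullPole

end Fermat.Agent.MazurStep
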