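import Fermat.Agent.MazurStep.Endgame.Disc
import Fermat.Agent.MazurStep.Endgame.Cusps

/-!
# Integral expansions with unit leading coefficient

The expansion of `Δ(τ)/Δ(pτ)`, and of `j` times a power of it, has integral coefficients and
leading coefficient `1`; such a function keeps its pole under every reduction.
-/

set_option autoImplicit false

noncomputable section

namespace Fermat.Agent.MazurStep.Endgame

open HahnSeries AlgebraicCurve ModularCurve
open Fermat.Agent Fermat.Agent.MFGenus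
open Fermat.Agent.Reduction Fermat.Agent.Reduction.CurveRed
open Fermat.Agent.MazurStep.Moduli (eElt)

local notation "ℚbar" => AlgebraicClosure ℚ

/-- The series has integral coefficients, order `-M` and leading coefficient `1`. -/
def IsIntMonic {R : Type*} [CommRing R] (y : LaurentSeries R) (M : ℤ) : Prop :=
  ∃ s : LaurentSeries ℤ, y = coeffMap (Int.castRingHom R) s ∧ s.order = -M ∧ s.leadingCoeff = 1

namespace IsIntMonic

variable {R : Type*} [CommRing R] {y z : LaurentSeries R} {M N : ℤ}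

theorem ne_zero_of_leadingCoeff {s : LaurentSeries ℤ} (h : s.leadingCoeff = 1) : s ≠ 0 :=
  HahnSeries.leadingCoeff_ne_zero.mp (by rw [h]; exact one_ne_zero)

theorem mul (hy : IsIntMonic y M) (hz : IsIntMonic z N) : IsIntMonic (y * z) (M + N) := by
  obtain ⟨s, rfl, hs, hs1⟩ := hy
  obtain ⟨t, rfl, ht, ht1⟩ := hz
  refine ⟨s * t, (map_mul _ _ _).symm, ?_, by rw [HahnSeries.leadingCoeff_mul, hs1, ht1, one_mul]⟩
  rw [HahnSeries.order_mul (ne_zero_of_leadingCoeff hs1) (ne_zero_of_leadingCoeff ht1), hs, ht]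
  ring

theorem one : IsIntMonic (1 : LaurentSeries R) 0 :=
  ⟨1, (map_one _).symm, by simp, by simp⟩

theorem pow (hy : IsIntMonic y M) (n : ℕ) : IsIntMonic (y ^ n) (n * M) := by
  induction n with
  | zero => simpa using one
  | succ n ih =>
    have := ih.mul hy
    rwa [← pow_succ, show ((n : ℤ) * M + M) = ((n + 1 : ℕ) : ℤ) * M by push_cast; ring] at this

theorem inv {K : Type*} [Field K] {y : LaurentSeries K} {M : ℤ} (hy : IsIntMonic y M) :
    IsIntMonic y⁻¹ (-M) := by
  obtain ⟨s, rfl, hs, hs1⟩ := hy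
  obtain ⟨u, hu⟩ := HahnSeries.isUnit_iff.mpr (hs1 ▸ isUnit_one : IsUnit s.leadingCoeff)
  have h1 : s * (↑u⁻¹ : LaurentSeries ℤ) = 1 := by rw [← hu]; exact u.mul_inv
  have hl : (↑u⁻¹ : LaurentSeries ℤ).leadingCoeff = 1 := by
    have := HahnSeries.leadingCoeff_mul s (↑u⁻¹ : LaurentSeries ℤ)
    rw [h1, hs1, one_mul, HahnSeries.leadingCoeff_one] at this
    exact this.symm
  refine ⟨↑u⁻¹, inv_eq_of_mul_eq_one_right (by rw [← map_mul, h1, map_one]), ?_, hl⟩
  have := HahnSeries.order_mul (ne_zero_of_leadingCoeff hs1) (ne_zero_of_leadingCoeff hl)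
  rw [h1, HahnSeries.order_one, hs] at this
  omega

theorem map {S : Type*} [CommRing S] (f : R →+* S) (hy : IsIntMonic y M) :
    IsIntMonic (coeffMap f y) M := by
  obtain ⟨s, rfl, hs, hs1⟩ := hy
  refine ⟨s, ?_, hs, hs1⟩
  refine HahnSeries.ext (funext fun i => ?_)
  simp [coeffMap_coeff]

end IsIntMonic

theorem isIntMonic_ofPowerSeries {R : Type*} [CommRing R] (U : PowerSeries ℤ)
    (hU : PowerSeries.constantCoeff U = 1) :
    IsIntMonic (HahnSeries.ofPowerSeries ℤ R (U.map (Int.castRingHom R))) 0 := by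
  refine ⟨HahnSeries.ofPowerSeries ℤ ℤ U, (coeffMap_ofPowerSeries _ _).symm, ?_⟩
  have hc : (HahnSeries.ofPowerSeries ℤ ℤ U).coeff (0 : ℤ) = 1 := by
    rw [show (0 : ℤ) = ((0 : ℕ) : ℤ) from rfl, HahnSeries.ofPowerSeries_apply_coeff,
      PowerSeries.coeff_zero_eq_constantCoeff, hU]
  have ho : (HahnSeries.ofPowerSeries ℤ ℤ U).order = 0 := by
    refine le_antisymm (HahnSeries.order_le_of_coeff_ne_zero (by rw [hc]; exact one_ne_zero)) ?_
    by_contra hlt
    have hne : HahnSeries.ofPowerSeries ℤ ℤ U ≠ 0 :=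
      HahnSeries.ne_zero_of_coeff_ne_zero (g := (0 : ℤ)) (by rw [hc]; exact one_ne_zero)
    exact hne (HahnSeries.coeff_order_eq_zero.mp
      (ModularCurve.ofPowerSeries_coeff_of_neg U (not_le.1 hlt)))
  exact ⟨by rw [ho, neg_zero], by rw [HahnSeries.leadingCoeff_eq, ho, hc]⟩

theorem isIntMonic_single {R : Type*} [CommRing R] (m : ℤ) :
    IsIntMonic (HahnSeries.single m (1 : R)) (-m) :=
  ⟨HahnSeries.single m 1, by rw [coeffMap_single]; simp,
    by rw [neg_neg, HahnSeries.order_single one_ne_zero],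
    by rw [HahnSeries.leadingCoeff_of_single]⟩

theorem isIntMonic_jq : IsIntMonic jq 1 := by
  have hc : PowerSeries.constantCoeff jNum = 1 := by simp
  have := (isIntMonic_single (R := ℚ) (-1)).mul
    (isIntMonic_ofPowerSeries (R := ℚ) jNum hc)
  simpa [jq, jNumQ] using this

theorem isIntMonic_deltaSeries : IsIntMonic deltaSeries (-1) := by
  have hc : PowerSeries.constantCoeff dedekindEtaUnit = 1 := by
    refine Int.cast_injective (α := ℚ) ?_
    have h := constantCoeff_dedekindEtaUnitQ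
    rw [dedekindEtaUnitQ, ← PowerSeries.coeff_zero_eq_constantCoeff, PowerSeries.coeff_map,
      PowerSeries.coeff_zero_eq_constantCoeff] at h
    simpa using h
  have := (isIntMonic_single (R := ℚ) 1).mul (isIntMonic_ofPowerSeries (R := ℚ) dedekindEtaUnit hc)
  simpa [deltaSeries, dedekindEtaUnitQ] using this

theorem isIntMonic_qExpand {R : Type*} [CommRing R] {y : LaurentSeries R} {M : ℤ} (p : ℕ)
    [NeZero p] (hy : IsIntMonic y M) : IsIntMonic (qExpand R p y) (p * M) := by
  obtain ⟨s, rfl, hs, hs1⟩ := hy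
  have hc : (qExpand ℤ p s).coeff ((p : ℤ) * s.order) = 1 := by
    rw [qExpand_coeff_mul, ← HahnSeries.leadingCoeff_eq, hs1]
  have hne' : qExpand ℤ p s ≠ 0 := HahnSeries.ne_zero_of_coeff_ne_zero
    (g := (p : ℤ) * s.order) (by rw [hc]; exact one_ne_zero)
  have ho : (qExpand ℤ p s).order = (p : ℤ) * s.order := by
    refine le_antisymm (HahnSeries.order_le_of_coeff_ne_zero (by rw [hc]; exact one_ne_zero)) ?_
    by_contra hlt
    rw [not_le] at hlt
    refine HahnSeries.coeff_order_eq_zero.not.2 hne' ?_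
    by_cases hd : (p : ℤ) ∣ (qExpand ℤ p s).order
    · obtain ⟨i, hi⟩ := hd
      rw [hi, qExpand_coeff_mul]
      refine HahnSeries.coeff_eq_zero_of_lt_order ?_
      rw [hi] at hlt
      exact lt_of_mul_lt_mul_left hlt (Int.natCast_nonneg p)
    · exact qExpand_coeff_of_not_dvd p s hd
  exact ⟨qExpand ℤ p s, (coeffMap_qExpand _ _ _).symm, by rw [ho, hs]; ring,
    by rw [HahnSeries.leadingCoeff_eq, ho, hc]⟩

/-- `Δ(τ)/Δ(pτ)` has an integral expansion with leading term `q ^ (1 - p)`. -/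
theorem isIntMonic_eElt (p : ℕ) [NeZero p] :
    IsIntMonic (eElt p : LaurentSeries ℚbar) ((p : ℤ) - 1) := by
  have h := isIntMonic_deltaSeries.mul (isIntMonic_qExpand p isIntMonic_deltaSeries).inv
  have h2 := h.map (algebraMap ℚ ℚbar)
  rw [show (-1 : ℤ) + -((p : ℤ) * -1) = (p : ℤ) - 1 by ring] at h2
  exact h2

/-- `j` has an integral expansion with leading term `q ^ (-1)`. -/
theorem isIntMonic_jElt (p : ℕ) [NeZero p] :
    IsIntMonic (jElt ℚbar p : LaurentSeries ℚbar) 1 := by
  have h : IsIntMonic (qExpand ℚ 1 jq) 1 := by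
    rw [qExpand_one_apply]; exact isIntMonic_jq
  exact h.map (algebraMap ℚ ℚbar)

theorem order_coeffMap_intCast {R : Type*} [Field R] {s : LaurentSeries ℤ}
    (hs1 : s.leadingCoeff = 1) : (coeffMap (Int.castRingHom R) s).order = s.order := by
  have h1 : (coeffMap (Int.castRingHom R) s).coeff s.order = 1 := by
    rw [coeffMap_coeff, ← HahnSeries.leadingCoeff_eq, hs1, map_one]
  have hne : coeffMap (Int.castRingHom R) s ≠ 0 :=
    HahnSeries.ne_zero_of_coeff_ne_zero (g := s.order) (by rw [h1]; exact one_ne_zero)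
  refine le_antisymm (HahnSeries.order_le_of_coeff_ne_zero (by rw [h1]; exact one_ne_zero)) ?_
  by_contra hlt
  refine HahnSeries.coeff_order_eq_zero.not.2 hne ?_
  rw [coeffMap_coeff, HahnSeries.coeff_eq_zero_of_lt_order (not_le.1 hlt), map_zero]

/-- An integral monic function regular outside `q = 0` keeps its pole. -/
theorem IsIntMonic.fullPole {K k : Type*} [Field K] [CharZero K] [Field k] {A : ValuationSubring K}
    {π : A →+* k} {S : CurveRed A π} {f : S.F} {M : ℤ} (hM : 0 < M)
    (hf : ∀ v, v ≠ S.pt → 0 ≤ v.ord f) (h : IsIntMonic (f : LaurentSeries K) M) :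
    ∃ t, FullPole f M t := by
  obtain ⟨s, hs, hso, hs1⟩ := h
  refine ⟨coeffMap (Int.castRingHom k) s, hM, hf, ?_, ?_,
    (order_coeffMap_intCast hs1).trans hso⟩
  · rw [S.ord_pt, hs, order_coeffMap_intCast hs1, hso]
  · rw [hs]
    refine red_iff_exists.mpr ⟨coeffMap (Int.castRingHom A) s, ?_, ?_⟩ <;>
    · refine HahnSeries.ext (funext fun i => ?_)
      simp [coeffMap_coeff]

end Fermat.Agent.MazurStep.Endgame
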