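import Fermat.Agent.MazurStep.Endgame.IntSeries
import Fermat.Agent.MazurStep.Local.Formal

/-!
# The kernel of reduction of `J₀(p)` at a prime `ℓ ≠ p`

It is stable under the Hecke operators away from `p`; a fixed place whose value of
`Δ(τ)/Δ(pτ)` is not integral gives a class `x - (∞)` in it, one whose value is integral and whose
`j` is not integral gives `x - (0)`; for odd `ℓ` it has no nonzero fixed torsion.
-/

set_option autoImplicit false
attribute [-instance] IsScalarTower.of_algHom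

noncomputable section

namespace Fermat.Agent.MazurStep.Endgame

open HahnSeries AlgebraicCurve ModularCurve
open Fermat.Agent Fermat.Agent.MFGenus
open Fermat.Agent.Reduction Fermat.Agent.Reduction.CurveRed
open Fermat.Agent.MazurStep.Moduli (eElt)

local notation "ℚbar" => AlgebraicClosure ℚ
local notation "Γℚ" => AlgebraicClosure ℚ ≃ₐ[ℚ] AlgebraicClosure ℚ

section Local

variable {K k : Type*} [Field K] [Field k] {A : ValuationSubring K} {π : A →+* k}
  {S : CurveRed A π} {n₀ : ℕ} {L : LocalData S n₀} {Γ : Type*} [Group Γ]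

/-- A fixed class killed by an odd `l` in the kernel of reduction is zero. -/
theorem eq_zero_of_localGroup (T : LocalGroup L Γ) (hl2 : 2 < L.l) {z : Pic0 K S.F}
    (hlz : L.l • z = 0) (hfix : ∀ σ, (T.sym σ).act z = z) (hz : L.gap.sp z = 0) : z = 0 := by
  obtain ⟨num, den, m, r, h⟩ := exists_isRatRep T.rich L.gap hz
    (by rintro _ ⟨σ, rfl⟩; exact hfix σ)
  obtain ⟨r', hr', h', hlev⟩ := h.1.exists_level
  have hγ : r' ≤ L.γ := by
    rcases hlev with rfl | ⟨i, hi⟩
    · exact zero_le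
    rw [← hi]
    exact T.valuation_le_of_fixed (mem_ratSeries.mp ((ratSeries _).sub_mem h.2.2.1 h.2.2.2) i)
      (hi.trans_lt (hr'.trans_lt h.1.lt_one))
  have hγρ : L.γ < L.ρ := by
    rw [← L.ρ_pow]
    exact pow_lt_self_of_lt_one₀ (zero_lt_iff.mpr L.ρ_ne_zero) L.ρ_lt_one (by omega)
  have hgood : Good L (Set.range T.sym) := ⟨T.rich, 1, one_pos, fun a ha ha0 => by
    obtain ⟨j, hj⟩ := T.valuation_fixed a (fun σ => ha _ ⟨σ, rfl⟩) ha0
    exact ⟨j, by rw [pow_one]; exact hj⟩⟩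
  refine L.eq_zero_of_tau hgood (z := z) (num := num) (den := den) (m := m)
    ⟨h'.mono (hγ.trans hγρ.le) L.ρ_lt_one, h.2⟩ hlz (funext fun i => ?_)
  have hlt : A.valuation (L.Φ.tang num den i / L.Λ) < 1 := by
    rw [map_div₀]
    refine (div_lt_one₀ (zero_lt_iff.mpr L.ρ_ne_zero)).mpr ?_
    exact ((L.Φ.valuation_tang_le h' i).trans hγ).trans_lt hγρ
  show L.res _ = 0
  rw [L.res_eq (((L.Φ.valuation_tang_le h' i).trans hγ).trans hγρ.le)]
  exact (residue_eq_zero_iff S.surj _).mpr hlt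

end Local

section Hecke

variable {ℓ : ℕ} [Fact ℓ.Prime] {A : ValuationSubring ℚbar} (hA : A.LiesOverPrime ℓ) {N : ℕ}
  [NeZero N] {hℓN : ¬ ℓ ∣ N} {n₀ : ℕ}

/-- The Hecke algebra away from `N` keeps the kernel of reduction. -/
theorem sp_hecke_eq_zero (hgap : (modCurve hA N hℓN).GapBound n₀)
    {T : Module.End ℤ (JZero N)}
    (hT : T ∈ Algebra.adjoin ℤ (heckeOperatorBar N '' {q : Nat.Primes | ¬ (q : ℕ) ∣ N}))
    {z : JZero N} (hz : hgap.sp z = 0) : hgap.sp (T z) = 0 := by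
  induction hT using Algebra.adjoin_induction generalizing z with
  | mem T hT =>
    obtain ⟨q, hq, rfl⟩ := hT
    have : Fact (q : ℕ).Prime := ⟨q.2⟩
    obtain ⟨M, -, hM⟩ := exists_acts_modCurve hA N hℓN hq hgap
    have hrich : Rich (∅ : Set (Sym (modCurve hA N hℓN))) := fun a =>
      ⟨a, fun σ hσ => absurd hσ (Set.notMem_empty σ), rfl⟩
    obtain ⟨num, den, m, r, h⟩ := exists_isRatRep hrich hgap hz
      fun σ hσ => absurd hσ (Set.notMem_empty σ)
    obtain ⟨num', den', m', h', -⟩ := hM ∅ z num den m r h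
    exact h'.1.sp_eq_zero hgap
  | algebraMap r =>
    rw [Module.algebraMap_end_apply]
    exact (map_zsmul hgap.sp r z).trans (by rw [hz, smul_zero])
  | add T T' _ _ h h' =>
    rw [LinearMap.add_apply]
    exact (map_add hgap.sp _ _).trans (by rw [h hz, h' hz, add_zero])
  | mul T T' _ _ h h' => exact h (h' hz)

/-- Torsion of order prime to `ℓ` reduces injectively. -/
theorem eq_zero_of_nsmul (hgap : (modCurve hA N hℓN).GapBound n₀) {m : ℕ} (hm : ¬ ℓ ∣ m)
    {z : JZero N} (hmz : m • z = 0) (hz : hgap.sp z = 0) : z = 0 := by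
  have := Gal.charP_residueField A (Fact.out (p := ℓ.Prime)) hA
  exact hgap.sp_injective_torsion (m := m)
    (fun h => hm ((CharP.cast_eq_zero_iff _ ℓ m).mp h)) hmz hz

/-- A fixed class killed by an odd `ℓ` in the kernel of reduction is zero. -/
theorem eq_zero_of_prime_nsmul (hgap : (modCurve hA N hℓN).GapBound n₀) (hℓ2 : 2 < ℓ)
    {z : JZero N} (hlz : ℓ • z = 0) (hfix : ∀ σ : Γℚ, σ • z = z) (hz : hgap.sp z = 0) :
    z = 0 := by
  obtain ⟨M, hM⟩ : ∃ M : Matrix (Fin (modCurve hA N hℓN).g) (Fin (modCurve hA N hℓN).g) ℤ,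
      ∀ i n, OrdinaryP.heckeCoef N ℓ ((modForms hA N hℓN).coef i) n =
        ∑ j, M i j * (modForms hA N hℓN).coef j n :=
    (OrdinaryP.levelForms (N := N) hA hℓN).exists_matrix_copyF
      (modularFunctionFieldBar_eq_qbarCurve hA N hℓN) (OrdinaryP.heckeCoef N ℓ)
      (OrdinaryP.exists_heckeMatrix_levelForms (N := N) hA hℓN Fact.out)
  refine eq_zero_of_localGroup (inertiaGroup hA (modLocalData hA N hℓN hgap M 0 0
    ((modForms hA N hℓN).isFrobMatrix_of_heckeCoef hM) (fun i j => by simp)) rfl) hℓ2 hlz ?_ hz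
  intro σ
  exact (inertiaSym_act hA N hℓN σ z).trans (hfix _)

/-- For odd `ℓ` there is no nonzero fixed torsion in the kernel of reduction. -/
theorem eq_zero_of_isOfFinAddOrder (hgap : (modCurve hA N hℓN).GapBound n₀) (hℓ2 : 2 < ℓ)
    {z : JZero N} (htor : IsOfFinAddOrder z) (hfix : ∀ σ : Γℚ, σ • z = z) (hz : hgap.sp z = 0) :
    z = 0 := by
  obtain ⟨n, hn, hnz⟩ := isOfFinAddOrder_iff_nsmul_eq_zero.mp htor
  induction n using Nat.strong_induction_on generalizing z with
  | _ n ih =>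
    by_cases hdvd : ℓ ∣ n
    · obtain ⟨m, rfl⟩ := hdvd
      have hm : 0 < m := Nat.pos_of_mul_pos_left hn
      have hfix' : ∀ σ : Γℚ, σ • (m • z) = m • z := fun σ => by
        rw [show σ • (m • z) = DistribSMul.toAddMonoidHom (JZero N) σ (m • z) from rfl,
          map_nsmul, DistribSMul.toAddMonoidHom_apply, hfix]
      have hmz := eq_zero_of_prime_nsmul hA hgap hℓ2
        (by rw [smul_smul]; exact hnz) hfix' ((map_nsmul hgap.sp m z).trans (by rw [hz, smul_zero]))
      exact ih m (lt_mul_of_one_lt_left hm (Fact.out : ℓ.Prime).one_lt)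
        (isOfFinAddOrder_iff_nsmul_eq_zero.mpr ⟨m, hm, hmz⟩) hfix hz hm hmz
    · exact eq_zero_of_nsmul hA hgap hdvd hnz hz

end Hecke

section Places

variable {ℓ : ℕ} [Fact ℓ.Prime] {A : ValuationSubring ℚbar} (hA : A.LiesOverPrime ℓ) {p : ℕ}
  [NeZero p] {hℓp : ¬ ℓ ∣ p} {n₀ : ℕ}
  {v₀ x : Place ℚbar (modularFunctionFieldBar p)} {c : ℚbar}

theorem classHom_cuspInf (hgap : (modCurve hA p hℓp).GapBound n₀) :
    hgap.classHom (Finsupp.single (Semistable.cuspInf p) 1) = 0 := by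
  rw [← pt_modCurve hA hℓp]
  exact hgap.classHom_atPt 1

/-- `Δ(τ)/Δ(pτ)` keeps its pole modulo `ℓ`. -/
theorem exists_fullPole_eElt (hp : p.Prime)
    (hoff : ∀ v, v ≠ Semistable.cuspInf p → v ≠ v₀ → v.ord (eElt p) = 0)
    (h0 : v₀.ord (eElt p) = (p : ℤ) - 1) :
    ∃ t, FullPole (S := modCurve hA p hℓp) (eElt p) ((p : ℤ) - 1) t := by
  refine (isIntMonic_eElt p).fullPole (by have := hp.two_le; omega) fun v hv => ?_
  rw [pt_modCurve] at hv
  by_cases h : v = v₀
  · rw [h, h0]; have := hp.two_le; omega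
  · rw [hoff v hv h]

/-- If the value of `Δ(τ)/Δ(pτ)` is not integral, `x - (∞)` reduces to zero. -/
theorem sp_diff_infty (hgap : (modCurve hA p hℓp).GapBound n₀) (hp : p.Prime)
    (hoff : ∀ v, v ≠ Semistable.cuspInf p → v ≠ v₀ → v.ord (eElt p) = 0)
    (h0 : v₀.ord (eElt p) = (p : ℤ) - 1) (hc : c ∉ A)
    (hx : 0 < x.ord (eElt p - algebraMap ℚbar _ c)) :
    hgap.sp (diffClass x (Semistable.cuspInf p)) = 0 := by
  obtain ⟨t, ht⟩ := exists_fullPole_eElt hA (hℓp := hℓp) hp hoff h0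
  have hbad : IsBad (S := modCurve hA p hℓp) x := ht.isBad_of_value hgap hc hx
  rw [diffClass, hgap.sp_mk]
  simp only
  rw [map_sub, classHom_cuspInf, sub_zero]
  exact classHom_bad hgap (isEff_single (S := modCurve hA p hℓp) x zero_le_one) fun v hv => by
    classical
    rw [Finsupp.single_apply] at hv
    split_ifs at hv with h
    · exact h ▸ hbad
    · exact absurd rfl hv

/-- If the value of `Δ(τ)/Δ(pτ)` is integral and that of `j` is not, `x - (0)` reduces to zero. -/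
theorem sp_diff_zero (hgap : (modCurve hA p hℓp).GapBound n₀) (hp : p.Prime)
    (hne : Semistable.cuspInf p ≠ v₀)
    (hoff : ∀ v, v ≠ Semistable.cuspInf p → v ≠ v₀ → v.ord (eElt p) = 0)
    (hi : (Semistable.cuspInf p).ord (eElt p) = 1 - (p : ℤ))
    (h0 : v₀.ord (eElt p) = (p : ℤ) - 1) (hc : c ∈ A)
    (hx : 0 < x.ord (eElt p - algebraMap ℚbar _ c)) {j₀ : ℚbar} (hj : j₀ ∉ A)
    (hxj : 0 < x.ord (jElt ℚbar p - algebraMap ℚbar _ j₀)) :
    hgap.sp (diffClass x v₀) = 0 := by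
  obtain ⟨t, ht⟩ := exists_fullPole_eElt hA (hℓp := hℓp) hp hoff h0
  have hgood : ¬ IsBad (S := modCurve hA p hℓp) x := ht.not_isBad_of_value hgap hc hx
  have hp2 := hp.two_le
  have hvp : ∀ v : Place ℚbar (modularFunctionFieldBar p), v ≠ Semistable.cuspInf p → v ≠ v₀ →
      0 ≤ v.ord (jElt ℚbar p) := fun v h1 h2 => by
    by_contra hlt
    have hpole : ∀ u : Place ℚbar (modularFunctionFieldBar p), u.ord (eElt p) ≠ 0 →
        0 < u.ord (jElt ℚbar p)⁻¹ := fun u hu => by
      by_contra hge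
      exact hu (Moduli.ord_eElt_eq_zero p hge)
    rcases eq_or_eq_of_pole hp hne (hpole _ (by rw [hi]; omega)) (hpole _ (by rw [h0]; omega))
      (v := v) (by rw [v.ord_inv]; omega) with h | h
    · exact h1 h
    · exact h2 h
  set n : ℕ := (-(v₀.ord (jElt ℚbar p))).toNat + 1 with hn
  set w := jElt ℚbar p * eElt p ^ n with hw
  have hj0 : jElt ℚbar p ≠ 0 := fun h =>
    transcendental_jElt (N := p) Kummer.ιbar (h ▸ isAlgebraic_zero)
  have he0 := pow_ne_zero n (Moduli.eElt_ne_zero p)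
  obtain ⟨tw, hwp⟩ : ∃ tw,
      FullPole (S := modCurve hA p hℓp) w (1 + (n : ℤ) * ((p : ℤ) - 1)) tw := by
    have hmon : IsIntMonic ((w : modularFunctionFieldBar p) : LaurentSeries ℚbar)
        (1 + (n : ℤ) * ((p : ℤ) - 1)) := (isIntMonic_jElt p).mul ((isIntMonic_eElt p).pow n)
    refine hmon.fullPole (S := modCurve hA p hℓp) (f := w) ?_ fun v hv => ?_
    · nlinarith
    rw [pt_modCurve] at hv
    rw [hw, v.ord_mul hj0 he0, FF.ord_pow]
    by_cases h : v = v₀
    · rw [h, h0]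
      have h1 : -(v₀.ord (jElt ℚbar p)) ≤ (n : ℤ) := by omega
      nlinarith
    · rw [hoff v hv h, mul_zero, add_zero]
      exact hvp v hv h
  -- the value of `w`
  have hval : 0 < x.ord (w - algebraMap ℚbar _ (j₀ * c ^ n)) := by
    have hdec : w - algebraMap ℚbar _ (j₀ * c ^ n) =
        (jElt ℚbar p - algebraMap ℚbar _ j₀) * eElt p ^ n +
          algebraMap ℚbar _ j₀ * ((eElt p - algebraMap ℚbar _ c) *
            ∑ i ∈ Finset.range n, eElt p ^ i * algebraMap ℚbar _ c ^ (n - 1 - i)) := by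
      rw [mul_comm (eElt p - _), geom_sum₂_mul, hw, map_mul, map_pow]
      ring
    have hwne : w - algebraMap ℚbar _ (j₀ * c ^ n) ≠ 0 := fun h => by
      have h1 := congrArg (Semistable.cuspInf p).ord (sub_eq_zero.mp h)
      rw [FF.ord_algebraMap, ← pt_modCurve hA hℓp] at h1
      rw [hwp.ord_pt] at h1
      have := hwp.pos
      omega
    have heA : eElt p ∈ FF.ordGE x 0 := by
      rw [show eElt p = (eElt p - algebraMap ℚbar _ c) + algebraMap ℚbar _ c by ring]
      exact add_mem (FF.mem_ordGE_of_le_ord x hx.le) (FF.algebraMap_mem_ordGE_zero x c)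
    have h1 : (jElt ℚbar p - algebraMap ℚbar _ j₀) * eElt p ^ n ∈ FF.ordGE x 1 :=
      FF.ordGE_antitone x (by simp) (FF.mul_mem_ordGE x
        (FF.mem_ordGE_of_le_ord x (show (1 : ℤ) ≤ _ from hxj)) (FF.pow_mem_ordGE x heA n))
    have hsum : (∑ i ∈ Finset.range n, eElt p ^ i * algebraMap ℚbar _ c ^ (n - 1 - i)) ∈
        FF.ordGE x 0 := sum_mem fun i _ => FF.ordGE_antitone x (by simp) (FF.mul_mem_ordGE x
          (FF.pow_mem_ordGE x heA i) (FF.pow_mem_ordGE x (FF.algebraMap_mem_ordGE_zero x c) _))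
    have h2 : algebraMap ℚbar _ j₀ * ((eElt p - algebraMap ℚbar _ c) *
        ∑ i ∈ Finset.range n, eElt p ^ i * algebraMap ℚbar _ c ^ (n - 1 - i)) ∈ FF.ordGE x 1 :=
      FF.ordGE_antitone x (by simp) (FF.mul_mem_ordGE x (FF.algebraMap_mem_ordGE_zero x j₀)
        (FF.mul_mem_ordGE x (FF.mem_ordGE_of_le_ord x (show (1 : ℤ) ≤ _ from hx)) hsum))
    have h3 := add_mem h1 h2
    rw [← hdec, FF.mem_ordGE_of_ne_zero x hwne] at h3
    exact lt_of_lt_of_le zero_lt_one h3
  -- the value of `Δ(τ)/Δ(pτ)` reduces to zero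
  have hcm : A.valuation c < 1 := by
    refine lt_of_le_of_ne ((A.valuation_le_one_iff c).2 hc) fun h1 => hgood ?_
    refine hwp.isBad_of_value hgap (fun hmem => hj ?_) hval
    have h2 := (A.valuation_le_one_iff _).2 hmem
    rw [map_mul, map_pow, h1, one_pow, mul_one] at h2
    exact (A.valuation_le_one_iff _).1 h2
  have h := ht.classHom_single_eq hgap (v₀ := v₀) (fun v hv hv' => by
    rw [pt_modCurve] at hv; exact hoff v hv hv') hcm hx
  rw [diffClass, hgap.sp_mk]
  simp only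
  rw [map_sub, h, sub_self]

end Places

end Fermat.Agent.MazurStep.Endgame
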