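import Fermat.Agent.MazurStep.Endgame.Kernel
import Fermat.Agent.MazurStep.Moduli.Place

/-!
# The endgame of Mazur's step

Given an operator `T` in the Hecke algebra away from `p` that makes every rational class torsion and
does not kill an `l`-torsion multiple of the cuspidal class `c`, the place `x` of a rational point
of order `p` gives: `T (x - (0))` is torsion, reduces to zero at `3`, hence is zero; so if
`x` reduces to `∞` at some bad `ℓ`, then `T c` reduces to zero there, hence is zero.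
-/

set_option autoImplicit false

noncomputable section

namespace Fermat.Agent.MazurStep.Endgame

open HahnSeries AlgebraicCurve ModularCurve
open Fermat.Agent Fermat.Agent.MFGenus
open Fermat.Agent.Reduction Fermat.Agent.Reduction.CurveRed
open Fermat.Agent.MazurStep.Moduli (eElt)
open WeierstrassCurve WeierstrassCurve.Affine

local notation "ℚbar" => AlgebraicClosure ℚ
local notation "Γℚ" => AlgebraicClosure ℚ ≃ₐ[ℚ] AlgebraicClosure ℚ

/-- The finiteness input: some element of the Hecke algebra away from `p` kills the free part of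
the rational classes but not a given rational Eisenstein class of order `l`. -/
def HeckeKills (p : ℕ) [NeZero p] : Prop :=
  ∀ {l : ℕ}, p.Prime → l.Prime → l ≠ p → ∀ {c₁ : JZero p}, c₁ ≠ 0 → l • c₁ = 0 →
    (∀ σ : Γℚ, σ • c₁ = c₁) →
    (∀ q : Nat.Primes, (q : ℕ) ≠ p → heckeOperatorBar p q c₁ = (1 + (q : ℕ)) • c₁) →
    ∃ T ∈ Algebra.adjoin ℤ (heckeOperatorBar p '' {q : Nat.Primes | (q : ℕ) ≠ p}),
      T c₁ ≠ 0 ∧ ∀ z : JZero p, (∀ σ : Γℚ, σ • z = z) → IsOfFinAddOrder (T z)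

/-- At a prime of multiplicative reduction `j` is not integral. -/
theorem jInvariant_notMem (W : WeierstrassCurve ℤ) {ℓ : ℕ} (hℓ : ℓ.Prime) (hΔ : W.Δ ≠ 0)
    (hℓΔ : (ℓ : ℤ) ∣ W.Δ) (hℓc₄ : ¬ (ℓ : ℤ) ∣ W.c₄) (A : ValuationSubring ℚbar)
    (hA : A.LiesOverPrime ℓ) : ((W.c₄ : ℚbar) ^ 3 / (W.Δ : ℚbar)) ∉ A := by
  intro h
  have hd : A.valuation ((W.Δ : ℤ) : ℚbar) < 1 :=
    (A.mem_nonunits_iff).mp ((Gal.intCast_mem_nonunits_iff A hℓ hA _).mpr hℓΔ)
  have hd0 : ((W.Δ : ℤ) : ℚbar) ≠ 0 := Int.cast_ne_zero.mpr hΔ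
  have h1 : A.valuation ((W.c₄ : ℚbar) ^ 3) < 1 := by
    rw [show (W.c₄ : ℚbar) ^ 3 = (W.c₄ : ℚbar) ^ 3 / (W.Δ : ℚbar) * (W.Δ : ℚbar) by
      rw [div_mul_cancel₀ _ hd0], map_mul]
    exact (mul_le_of_le_one_left' ((A.valuation_le_one_iff _).mpr h)).trans_lt hd
  rw [map_pow] at h1
  exact hℓc₄ ((Gal.intCast_mem_nonunits_iff A hℓ hA _).mp ((A.mem_nonunits_iff).mpr
    ((pow_lt_one_iff (by norm_num)).mp h1)))

/-- The Hecke algebra commutes with Galois. -/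
theorem adjoin_commutes_smul {p : ℕ} [NeZero p] {T : Module.End ℤ (JZero p)}
    (hT : T ∈ Algebra.adjoin ℤ (heckeOperatorBar p '' {q : Nat.Primes | (q : ℕ) ≠ p}))
    (σ : Γℚ) (z : JZero p) : T (σ • z) = σ • T z := by
  induction hT using Algebra.adjoin_induction generalizing z with
  | mem T hT =>
    obtain ⟨q, -, rfl⟩ := hT
    exact Kummer.heckeOperatorBar_smul p q σ z
  | algebraMap r =>
    rw [Module.algebraMap_end_apply, Module.algebraMap_end_apply]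
    exact (map_zsmul (DistribSMul.toAddMonoidHom (JZero p) σ) r z).symm
  | add T T' _ _ h h' =>
    rw [LinearMap.add_apply, LinearMap.add_apply, h, h']
    exact (smul_add σ _ _).symm
  | mul T T' _ _ h h' => rw [Module.End.mul_apply, Module.End.mul_apply, h', h]

/-- **Mazur's step, given the finiteness input.** -/
theorem not_inZeroComponentAt {p : ℕ} [NeZero p] (hK : HeckeKills p) (hp : p.Prime)
    (hp' : p ∉ ({2, 3, 5, 7, 13} : Finset ℕ))
    (W : WeierstrassCurve ℤ) (hΔ : W.Δ ≠ 0)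
    (Q : ((W.map (Int.castRingHom ℚ))⁄(AlgebraicClosure ℚ)).Point)
    (hQfix : ∀ σ : AlgebraicClosure ℚ ≃ₐ[ℚ] AlgebraicClosure ℚ, σ • Q = Q)
    (hQord : addOrderOf Q = p)
    (h2Δ : (2 : ℤ) ∣ W.Δ) (h2c₄ : ¬ (2 : ℤ) ∣ W.c₄)
    (h2 : ∀ A : ValuationSubring (AlgebraicClosure ℚ), A.LiesOverPrime 2 →
      ¬ W.InZeroComponentAt A Q)
    (h3Δ : (3 : ℤ) ∣ W.Δ) (h3c₄ : ¬ (3 : ℤ) ∣ W.c₄)
    (h3 : ∀ A : ValuationSubring (AlgebraicClosure ℚ), A.LiesOverPrime 3 →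
      ¬ W.InZeroComponentAt A Q)
    {ℓ : ℕ} (hℓ : ℓ.Prime) (hℓp : ℓ ≠ p) (hℓΔ : (ℓ : ℤ) ∣ W.Δ) (hℓc₄ : ¬ (ℓ : ℤ) ∣ W.c₄)
    (A : ValuationSubring (AlgebraicClosure ℚ)) (hA : A.LiesOverPrime ℓ) :
    ¬ W.InZeroComponentAt A Q := by
  rcases eq_or_ne ℓ 2 with rfl | hℓ2
  · exact h2 A hA
  intro hzero
  have hp2 : p ≠ 2 := fun h => hp' (by simp [h])
  have hp3 : p ≠ 3 := fun h => hp' (by simp [h])
  obtain ⟨x, hxfix, hxj, c, -, hxc, hcrit⟩ :=
    Moduli.exists_moduli_place hp hp2 W hΔ Nat.prime_two h2Δ h2c₄ Q hQfix hQord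
  obtain ⟨v₀, hifix, h0fix, hei, hoff, he0, hpc, hc0, heig⟩ := exists_cuspClass hp hp'
  set vi := Semistable.cuspInf p with hvi
  set cc := diffClass v₀ vi with hcc
  have hvne : vi ≠ v₀ := fun h => hc0 (by
    rw [hcc, ← h]; exact (add_eq_left.mp (diffClass_add vi vi vi)))
  have hsmul : ∀ (σ : Γℚ) (n : ℕ) (z : JZero p), σ • (n • z) = n • (σ • z) := fun σ n z => by
    rw [show σ • (n • z) = DistribSMul.toAddMonoidHom (JZero p) σ (n • z) from rfl, map_nsmul]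
    rfl
  have hcfix : ∀ σ : Γℚ, σ • cc = cc := fun σ => smul_diffClass σ (h0fix σ) (hifix σ)
  -- a class of prime order
  set n := addOrderOf cc with hn
  have hcdiv : n ∣ p - 1 := addOrderOf_dvd_of_nsmul_eq_zero hpc
  have hn1 : n ≠ 1 := fun h => hc0 (AddMonoid.addOrderOf_eq_one_iff.mp h)
  have hp1 : 0 < p - 1 := by have := hp.two_le; omega
  have hn0 : n ≠ 0 := fun h => by rw [h, zero_dvd_iff] at hcdiv; omega
  obtain ⟨l, hl, hln⟩ := Nat.exists_prime_and_dvd hn1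
  have hlp : l ≠ p := by
    rintro rfl
    have := Nat.le_of_dvd hp1 (hln.trans hcdiv)
    omega
  set c₁ := (n / l) • cc with hc₁
  have hc₁0 : c₁ ≠ 0 := by
    intro h
    have h1 := Nat.le_of_dvd (Nat.div_pos (Nat.le_of_dvd (by omega) hln) hl.pos)
      (addOrderOf_dvd_of_nsmul_eq_zero h)
    have h2 := Nat.div_lt_self (Nat.pos_of_ne_zero hn0) hl.one_lt
    omega
  have hlc₁ : l • c₁ = 0 := by
    rw [hc₁, smul_smul, Nat.mul_div_cancel' hln, hn, addOrderOf_nsmul_eq_zero]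
  have hfix₁ : ∀ σ : Γℚ, σ • c₁ = c₁ := fun σ => by rw [hc₁, hsmul, hcfix]
  have heig₁ : ∀ q : Nat.Primes, (q : ℕ) ≠ p →
      heckeOperatorBar p q c₁ = (1 + (q : ℕ)) • c₁ := fun q hq => by
    rw [hc₁, map_nsmul, heig q hq, smul_comm]
  obtain ⟨T, hTmem, hTc₁, hT⟩ := hK hp hl hlp hc₁0 hlc₁ hfix₁ heig₁
  -- `T` commutes with Galois
  have hTσ := adjoin_commutes_smul hTmem
  have hset : {q : Nat.Primes | (q : ℕ) ≠ p} = {q : Nat.Primes | ¬ (q : ℕ) ∣ p} :=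
    Set.ext fun q => not_congr (Nat.prime_dvd_prime_iff_eq q.2 hp).symm
  rw [hset] at hTmem
  -- `T (x - (0))` vanishes
  set z₀ := diffClass x v₀ with hz₀
  have hz₀fix : ∀ σ : Γℚ, σ • z₀ = z₀ := fun σ => smul_diffClass σ (hxfix σ) (h0fix σ)
  have hTz₀ : T z₀ = 0 := by
    obtain ⟨A₃, hA₃⟩ := Gal.exists_liesOverPrime (L := ℚbar) Nat.prime_three
    have h3p : ¬ 3 ∣ p := fun h => hp3 ((Nat.prime_dvd_prime_iff_eq Nat.prime_three hp).mp h).symm
    obtain ⟨n₀, hgap⟩ := exists_gapBound_modCurve hA₃ p h3p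
    refine eq_zero_of_isOfFinAddOrder hA₃ hgap (by norm_num) (hT z₀ hz₀fix)
      (fun σ => by rw [← hTσ, hz₀fix]) (sp_hecke_eq_zero hA₃ hgap hTmem ?_)
    exact sp_diff_zero hA₃ hgap hp hvne hoff hei he0
      ((hcrit 3 Nat.prime_three hp3.symm h3Δ h3c₄ A₃ hA₃).mpr (h3 A₃ hA₃)) hxc
      (jInvariant_notMem W Nat.prime_three hΔ h3Δ h3c₄ A₃ hA₃) hxj
  -- at `ℓ`
  have := Fact.mk hℓ
  have hℓp' : ¬ ℓ ∣ p := fun h => hℓp ((Nat.prime_dvd_prime_iff_eq hℓ hp).mp h)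
  obtain ⟨n₁, hgap⟩ := exists_gapBound_modCurve hA p hℓp'
  have hcA : c ∉ A := fun h => (hcrit ℓ hℓ hℓp hℓΔ hℓc₄ A hA).mp h hzero
  have hsp : hgap.sp (T cc) = 0 := by
    have h1 := sp_hecke_eq_zero hA hgap hTmem (sp_diff_infty hA hgap hp hoff he0 hcA hxc)
    rwa [← diffClass_add x v₀ vi, map_add, ← hz₀, hTz₀, zero_add] at h1
  have hkc : T cc = 0 := by
    refine eq_zero_of_isOfFinAddOrder hA hgap (by have := hℓ.two_le; omega) (hT cc hcfix)
      (fun σ => by rw [← hTσ, hcfix]) hsp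
  apply hTc₁
  rw [hc₁, map_nsmul, hkc, smul_zero]

end Fermat.Agent.MazurStep.Endgame
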